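import Fermat.Agent.John.Stretch
import Mathlib.Topology.Instances.Matrix

/-!
# Inscribed ellipsoids of largest volume

They exist by compactness, and a point of `K` outside `m` times such an ellipsoid would give a
larger one.
-/

set_option autoImplicit false

noncomputable section

open Matrix Set

namespace FA.John

variable {m : ℕ}

theorem abs_le_one_of_dot {y : Fin m → ℝ} (hy : y ⬝ᵥ y ≤ 1) (i : Fin m) : |y i| ≤ 1 := by
  refine abs_le_of_sq_le_sq ?_ zero_le_one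
  rw [one_pow, sq]
  exact (Finset.single_le_sum (f := fun j => y j * y j) (fun j _ => mul_self_nonneg _)
    (Finset.mem_univ i)).trans hy

/-- Among the ellipsoids in `K` with centre in `C` one has the largest volume. -/
theorem exists_max_in {K : Set (Fin m → ℝ)} (hK : IsCompact K) {C : Set (Fin m → ℝ)}
    (hC : IsClosed C) {x₀ : Fin m → ℝ} (hx₀ : x₀ ∈ interior K) (hx₀' : x₀ ∈ C) :
    ∃ c A, c ∈ C ∧ IsInscribed K c A ∧ A.det ≠ 0 ∧
      ∀ c' A', c' ∈ C → IsInscribed K c' A' → |A'.det| ≤ |A.det| := by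
  obtain ⟨R, hR⟩ := hK.isBounded.exists_norm_le
  obtain ⟨S, hS⟩ : ∃ S : Set ((Fin m → ℝ) × (Fin m → Fin m → ℝ)),
      S = {q | q.1 ∈ C ∧ IsInscribed K q.1 (Matrix.of q.2)} := ⟨_, rfl⟩
  have hSc : IsClosed S := by
    have e : S = (Prod.fst ⁻¹' C) ∩ ⋂ (y : Fin m → ℝ) (_ : y ⬝ᵥ y ≤ 1),
        (fun q : (Fin m → ℝ) × (Fin m → Fin m → ℝ) => q.1 + Matrix.of q.2 *ᵥ y) ⁻¹' K := by
      ext q
      simp [hS, IsInscribed]
    rw [e]
    exact (hC.preimage continuous_fst).inter (isClosed_iInter fun y => isClosed_iInter fun _ =>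
      hK.isClosed.preimage (by unfold Matrix.mulVec dotProduct; fun_prop))
  have hSb : Bornology.IsBounded S := by
    refine isBounded_iff_forall_norm_le.2 ⟨2 * R, fun q hq => ?_⟩
    rw [hS] at hq
    have h0 : q.1 ∈ K := by simpa using hq.2 0 (by simp)
    have hR0 : ‖q.1‖ ≤ R := hR _ h0
    have hR' : 0 ≤ R := (norm_nonneg _).trans hR0
    refine norm_prod_le_iff.2 ⟨by linarith, (pi_norm_le_iff_of_nonneg (by linarith)).2 fun i =>
      (pi_norm_le_iff_of_nonneg (by linarith)).2 fun j => ?_⟩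
    have h1 := (norm_le_pi_norm _ i).trans (hR _ (hq.2 (Pi.single j 1) (by simp)))
    rw [Pi.add_apply, mulVec_single_one] at h1
    have h2 := (norm_le_pi_norm q.1 i).trans hR0
    calc ‖q.2 i j‖ = ‖(q.1 i + q.2 i j) - q.1 i‖ := by rw [add_sub_cancel_left]
      _ ≤ R + R := (norm_sub_le _ _).trans (add_le_add h1 h2)
      _ = 2 * R := by ring
  obtain ⟨ε, hε, hball⟩ := Metric.mem_nhds_iff.1 (mem_interior_iff_mem_nhds.1 hx₀)
  obtain ⟨q₀, hq₀⟩ : ∃ q₀ : (Fin m → ℝ) × (Fin m → Fin m → ℝ),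
      q₀ = (x₀, Matrix.of.symm ((ε / 2) • (1 : Matrix (Fin m) (Fin m) ℝ))) := ⟨_, rfl⟩
  have hmem : q₀ ∈ S := by
    rw [hS, hq₀]
    refine ⟨hx₀', fun y hy => hball ?_⟩
    show x₀ + ((ε / 2) • (1 : Matrix (Fin m) (Fin m) ℝ)) *ᵥ y ∈ Metric.ball x₀ ε
    rw [smul_mulVec, one_mulVec, Metric.mem_ball, dist_eq_norm, add_sub_cancel_left, norm_smul,
      Real.norm_of_nonneg (by linarith)]
    have : ‖y‖ ≤ 1 := (pi_norm_le_iff_of_nonneg zero_le_one).2 fun i => abs_le_one_of_dot hy i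
    nlinarith
  obtain ⟨q, hq, hmax⟩ := (Metric.isCompact_of_isClosed_isBounded hSc hSb).exists_isMaxOn
    ⟨q₀, hmem⟩ (f := fun q => |(Matrix.of q.2).det|) (by
      have : Continuous fun M : Fin m → Fin m → ℝ => (Matrix.of M).det :=
        Continuous.matrix_det continuous_id
      exact ((this.comp continuous_snd).abs).continuousOn)
  have h0 : 0 < |(Matrix.of q₀.2).det| := by
    rw [hq₀]
    show 0 < |((ε / 2) • (1 : Matrix (Fin m) (Fin m) ℝ)).det|
    rw [det_smul, det_one, mul_one]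
    positivity
  rw [hS] at hq
  refine ⟨q.1, Matrix.of q.2, hq.1, hq.2,
    abs_pos.1 (h0.trans_le (hmax hmem)), fun c' A' hc' h => ?_⟩
  have hm : (c', Matrix.of.symm A') ∈ S := by
    rw [hS]
    exact ⟨hc', h⟩
  exact hmax hm

theorem convex_pullback {K : Set (Fin m → ℝ)} (hK : Convex ℝ K) (c : Fin m → ℝ)
    (A : Matrix (Fin m) (Fin m) ℝ) : Convex ℝ {z | c + A *ᵥ z ∈ K} := by
  intro x hx y hy a b ha hb hab
  show c + A *ᵥ (a • x + b • y) ∈ K
  rw [mulVec_add, mulVec_smul, mulVec_smul,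
    show c + (a • (A *ᵥ x) + b • (A *ᵥ y)) = a • (c + A *ᵥ x) + b • (c + A *ᵥ y) by
      funext i
      simp only [Pi.add_apply, Pi.smul_apply, smul_eq_mul]
      linear_combination -(c i) * hab]
  exact hK hx hy ha hb hab

theorem exists_preimage {A : Matrix (Fin m) (Fin m) ℝ} (hA : A.det ≠ 0) (c p : Fin m → ℝ) :
    ∃ q, p = c + A *ᵥ q :=
  ⟨A⁻¹ *ᵥ (p - c), by
    rw [mulVec_mulVec, mul_nonsing_inv _ (isUnit_iff_ne_zero.2 hA), one_mulVec, add_sub_cancel]⟩

theorem not_one_lt {A D : Matrix (Fin m) (Fin m) ℝ} (hA : A.det ≠ 0)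
    (h : |(A * D).det| ≤ |A.det|) : ¬1 < D.det ^ 2 := by
  rw [det_mul, abs_mul, mul_le_iff_le_one_right (abs_pos.2 hA), abs_le_one_iff_mul_self_le_one] at h
  rw [sq]
  exact not_lt.2 h

/-- **John's theorem.** -/
theorem exists_scaled {K : Set (Fin m → ℝ)} (hK : Convex ℝ K) (hc : IsClosed K) {c : Fin m → ℝ}
    {A : Matrix (Fin m) (Fin m) ℝ} (hA : A.det ≠ 0) (hin : IsInscribed K c A)
    (hmax : ∀ c' A', IsInscribed K c' A' → |A'.det| ≤ |A.det|) {p : Fin m → ℝ} (hp : p ∈ K) :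
    ∃ q, q ⬝ᵥ q ≤ (m : ℝ) ^ 2 ∧ p = c + A *ᵥ q := by
  obtain ⟨q, rfl⟩ := exists_preimage hA c p
  refine ⟨q, ?_, rfl⟩
  cases m with
  | zero => simp [dotProduct]
  | succ k =>
    by_contra! hlt
    push_cast at hlt
    obtain ⟨t, D, hD, hdet⟩ := exists_larger (K := {z | c + A *ᵥ z ∈ K}) (convex_pullback hK c A)
      (hc.preimage (continuous_const.add (continuous_const.matrix_mulVec continuous_id))) hin hp hlt
    refine not_one_lt hA (hmax (c + A *ᵥ t) (A * D) fun y hy => ?_) hdet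
    rw [← mulVec_mulVec, add_assoc, ← mulVec_add]
    exact hD y hy

/-- **John's theorem for symmetric bodies.** -/
theorem exists_scaled_symm {K : Set (Fin m → ℝ)} (hK : Convex ℝ K) (hc : IsClosed K)
    (hsym : ∀ x ∈ K, -x ∈ K) {A : Matrix (Fin m) (Fin m) ℝ} (hA : A.det ≠ 0)
    (hin : IsInscribed K 0 A) (hmax : ∀ A', IsInscribed K 0 A' → |A'.det| ≤ |A.det|)
    {p : Fin m → ℝ} (hp : p ∈ K) : ∃ q, q ⬝ᵥ q ≤ (m : ℝ) ∧ p = A *ᵥ q := by
  obtain ⟨q, rfl⟩ := exists_preimage hA 0 p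
  refine ⟨q, ?_, zero_add _⟩
  cases m with
  | zero => simp [dotProduct]
  | succ k =>
    by_contra! hlt
    push_cast at hlt
    obtain ⟨D, hD, hdet⟩ := exists_larger_symm (K := {z | 0 + A *ᵥ z ∈ K}) (convex_pullback hK 0 A)
      (hc.preimage (continuous_const.add (continuous_const.matrix_mulVec continuous_id)))
      (fun x hx => by simpa [mulVec_neg] using hsym _ hx) hin hp hlt
    refine not_one_lt hA (hmax (A * D) fun y hy => ?_) hdet
    have h := hD y hy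
    show 0 + (A * D) *ᵥ y ∈ K
    rw [← mulVec_mulVec]
    simpa using h

end FA.John

end
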