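import Fermat.Agent.John.Maximal
import Fermat.Agent.Banaszczyk.Covering

/-!
# Khinchine's flatness theorem

The maximal ellipsoid of a body free of integral points is flat, hence so is the body.
-/

set_option autoImplicit false

noncomputable section

open Matrix FA.Perfect FA.Reduction FA.OrthogonalUnits

namespace FA.John

variable {n : ℕ}

theorem exists_flat_body {K : Set (Fin (n + 1) → ℝ)} (hK : Convex ℝ K) (hc : IsCompact K)
    (hne : (interior K).Nonempty) (hfree : ∀ v, castVec v ∉ interior K) :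
    ∃ w : Fin (n + 1) → ℤ, w ≠ 0 ∧
      ∀ x ∈ K, ∀ y ∈ K, |castVec w ⬝ᵥ x - castVec w ⬝ᵥ y| ≤ ((n : ℝ) + 1) ^ 2 := by
  obtain ⟨x₀, hx₀⟩ := hne
  obtain ⟨c, A, -, hin, hA, hmax⟩ := exists_max_in hc isClosed_univ hx₀ (Set.mem_univ x₀)
  have hu : IsUnit A.det := isUnit_iff_ne_zero.2 hA
  have hB : A⁻¹.det ≠ 0 := by
    rw [det_nonsing_inv, Ring.inverse_eq_inv']
    exact inv_ne_zero hA
  have hinv : ∀ q, A⁻¹ *ᵥ (A *ᵥ q) = q := fun q => by
    rw [mulVec_mulVec, nonsing_inv_mul _ hu, one_mulVec]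
  have hq : ∀ x, quad (A⁻¹ᵀ * A⁻¹) (x - c) = (A⁻¹ *ᵥ (x - c)) ⬝ᵥ (A⁻¹ *ᵥ (x - c)) := fun x => by
    rw [quad_transpose_mul_self, dotProduct]
    simp only [sq]
  obtain ⟨w, hw, hflat⟩ := Banaszczyk.exists_flat (posDef_transpose_mul_self hB) (a := c)
    fun v => by
      rw [hq]
      by_contra! hlt
      have hU : IsOpen {x | (A⁻¹ *ᵥ (x - c)) ⬝ᵥ (A⁻¹ *ᵥ (x - c)) < 1} := by
        refine isOpen_lt ?_ continuous_const
        unfold Matrix.mulVec dotProduct
        fun_prop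
      refine hfree v (interior_maximal (fun x (hx : _ < (1 : ℝ)) => ?_) hU hlt)
      have h := hin _ hx.le
      rwa [mulVec_mulVec, mul_nonsing_inv _ hu, one_mulVec, add_sub_cancel] at h
  refine ⟨w, hw, fun x hx y hy => ?_⟩
  have key : ∀ p ∈ K, ∃ p', quad (A⁻¹ᵀ * A⁻¹) (p' - c) ≤ 1 ∧
      p = c + ((n : ℝ) + 1) • (p' - c) := fun p hp => by
    obtain ⟨q, hq2, rfl⟩ := exists_scaled hK hc.isClosed hA hin
      (fun c' A' => hmax c' A' (Set.mem_univ c')) hp
    refine ⟨c + A *ᵥ (((n : ℝ) + 1)⁻¹ • q), ?_, ?_⟩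
    · rw [hq, add_sub_cancel_left, hinv, smul_dotProduct, dotProduct_smul, smul_eq_mul, smul_eq_mul,
        ← mul_assoc, ← sq, inv_pow, inv_mul_le_iff₀ (by positivity), mul_one]
      exact_mod_cast hq2
    · rw [add_sub_cancel_left, mulVec_smul, smul_smul, mul_inv_cancel₀ (by positivity), one_smul]
  obtain ⟨x', hx1, hx2⟩ := key x hx
  obtain ⟨y', hy1, hy2⟩ := key y hy
  rw [hx2, hy2, show castVec w ⬝ᵥ (c + ((n : ℝ) + 1) • (x' - c)) -
      castVec w ⬝ᵥ (c + ((n : ℝ) + 1) • (y' - c)) =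
      ((n : ℝ) + 1) * (castVec w ⬝ᵥ x' - castVec w ⬝ᵥ y') by
    simp only [dotProduct_add, dotProduct_smul, dotProduct_sub, smul_eq_mul]
    ring, abs_mul, abs_of_pos (by positivity), sq]
  exact mul_le_mul_of_nonneg_left (hflat x' y' hx1 hy1) (by positivity)

end FA.John

end
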