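import Mathlib.Algebra.Order.Star.Real
import Mathlib.Analysis.LocallyConvex.Separation
import Mathlib.Analysis.Normed.Module.FiniteDimension
import Mathlib.Analysis.Real.Sqrt
import Mathlib.LinearAlgebra.Matrix.SchurComplement

/-!
# Stretching a ball towards a far point

A closed convex set with the unit ball and a point at distance `d > m` contains an ellipsoid of
larger volume; so it does when it is symmetric and `d ^ 2 > m`.
-/

set_option autoImplicit false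

noncomputable section

open Matrix

namespace FA.John

variable {m : ℕ}

/-- The ellipsoid `c + A (unit ball)` lies in `K`. -/
def IsInscribed (K : Set (Fin m → ℝ)) (c : Fin m → ℝ) (A : Matrix (Fin m) (Fin m) ℝ) : Prop :=
  ∀ y, y ⬝ᵥ y ≤ 1 → c + A *ᵥ y ∈ K

theorem dot_self_nonneg (x : Fin m → ℝ) : 0 ≤ x ⬝ᵥ x :=
  Finset.sum_nonneg fun i _ => mul_self_nonneg (x i)

theorem sq_dot_le (x y : Fin m → ℝ) : (x ⬝ᵥ y) ^ 2 ≤ (x ⬝ᵥ x) * (y ⬝ᵥ y) :=
  (Finset.sum_mul_sq_le_sq_mul_sq Finset.univ x y).trans_eq (by simp [dotProduct, sq])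

theorem mem_of_forall_dot {K : Set (Fin m → ℝ)} (hK : Convex ℝ K) (hc : IsClosed K)
    {z : Fin m → ℝ} (h : ∀ (w : Fin m → ℝ) (u : ℝ), (∀ x ∈ K, w ⬝ᵥ x ≤ u) → w ⬝ᵥ z ≤ u) :
    z ∈ K := by
  by_contra hz
  obtain ⟨f, u, hf, hu⟩ := geometric_hahn_banach_closed_point hK hc hz
  have e : ∀ x, (fun i => f (Pi.single i 1)) ⬝ᵥ x = f x := fun x => by
    conv_rhs => rw [pi_eq_sum_univ' x, map_sum]
    exact Finset.sum_congr rfl fun i _ => by rw [map_smul, smul_eq_mul, mul_comm]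
  have := h (fun i => f (Pi.single i 1)) u fun x hx => (e x).trans_le (hf x hx).le
  rw [e] at this
  linarith

/-- The map with semiaxis `a` along `e` and `b` across. -/
def axisMatrix (e : Fin m → ℝ) (a b : ℝ) : Matrix (Fin m) (Fin m) ℝ :=
  b • 1 + (a - b) • vecMulVec e e

theorem axisMatrix_mulVec (e : Fin m → ℝ) (a b : ℝ) (y : Fin m → ℝ) :
    axisMatrix e a b *ᵥ y = b • y + ((a - b) * (e ⬝ᵥ y)) • e := by
  funext i
  simp [axisMatrix, add_mulVec, smul_mulVec, vecMulVec_mulVec]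
  ring

/-- The reach of the ellipsoid in the direction `w`. -/
theorem dot_axis_le {e : Fin m → ℝ} (he : e ⬝ᵥ e = 1) {a b M : ℝ} (hM : 0 ≤ M) {w y : Fin m → ℝ}
    (hy : y ⬝ᵥ y ≤ 1) (h : b ^ 2 * (w ⬝ᵥ w) + (a ^ 2 - b ^ 2) * (e ⬝ᵥ w) ^ 2 ≤ M ^ 2) :
    w ⬝ᵥ (axisMatrix e a b *ᵥ y) ≤ M := by
  have e1 : w ⬝ᵥ (axisMatrix e a b *ᵥ y) = (axisMatrix e a b *ᵥ w) ⬝ᵥ y := by
    simp only [axisMatrix_mulVec, dotProduct_add, add_dotProduct, dotProduct_smul, smul_dotProduct,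
      smul_eq_mul, dotProduct_comm w e]
    ring
  have e2 : (axisMatrix e a b *ᵥ w) ⬝ᵥ (axisMatrix e a b *ᵥ w) =
      b ^ 2 * (w ⬝ᵥ w) + (a ^ 2 - b ^ 2) * (e ⬝ᵥ w) ^ 2 := by
    simp only [axisMatrix_mulVec, dotProduct_add, add_dotProduct, dotProduct_smul, smul_dotProduct,
      smul_eq_mul, dotProduct_comm w e, he]
    ring
  rw [e1]
  refine (le_abs_self _).trans (abs_le_of_sq_le_sq ?_ hM)
  refine (sq_dot_le _ y).trans ((mul_le_of_le_one_right (dot_self_nonneg _) hy).trans ?_)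
  rw [e2]
  exact h

theorem det_axisMatrix {e : Fin (m + 1) → ℝ} (he : e ⬝ᵥ e = 1) (a : ℝ) {b : ℝ} (hb : b ≠ 0) :
    (axisMatrix e a b).det = b ^ m * a := by
  have h : axisMatrix e a b =
      b • (1 + replicateCol Unit (((a - b) / b) • e) * replicateRow Unit e) := by
    rw [← vecMulVec_eq, smul_vecMulVec, smul_add, smul_smul, mul_div_cancel₀ _ hb]
    rfl
  rw [h, det_smul, det_one_add_replicateCol_mul_replicateRow, Fintype.card_fin, dotProduct_smul,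
    smul_eq_mul, he]
  field_simp
  ring

/-- The support of a set with the unit ball is at least the length. -/
theorem sqrt_le_support {K : Set (Fin m → ℝ)} (hball : ∀ y, y ⬝ᵥ y ≤ 1 → y ∈ K) {w : Fin m → ℝ}
    {u : ℝ} (hu : ∀ x ∈ K, w ⬝ᵥ x ≤ u) : √(w ⬝ᵥ w) ≤ u := by
  rcases (Real.sqrt_nonneg (w ⬝ᵥ w)).eq_or_lt with h | h
  · rw [← h]
    simpa using hu 0 (hball 0 (by simp))
  · have hW : √(w ⬝ᵥ w) ^ 2 = w ⬝ᵥ w := Real.sq_sqrt (dot_self_nonneg w)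
    have e : ((√(w ⬝ᵥ w))⁻¹ • w) ⬝ᵥ ((√(w ⬝ᵥ w))⁻¹ • w) = 1 := by
      rw [smul_dotProduct, dotProduct_smul, smul_eq_mul, smul_eq_mul]
      field_simp
      exact hW.symm
    refine le_of_eq_of_le ?_ (hu _ (hball _ e.le))
    rw [dotProduct_smul, smul_eq_mul, inv_mul_eq_div, eq_div_iff h.ne', ← sq, hW]

theorem abs_dot_le_sqrt {e : Fin m → ℝ} (he : e ⬝ᵥ e = 1) (w : Fin m → ℝ) :
    |e ⬝ᵥ w| ≤ √(w ⬝ᵥ w) := by
  rw [Real.le_sqrt (abs_nonneg _) (dot_self_nonneg w), sq_abs]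
  exact (sq_dot_le e w).trans_eq (by rw [he, one_mul])

/-- **A far point lets the ball grow.** -/
theorem exists_larger {K : Set (Fin (m + 1) → ℝ)} (hK : Convex ℝ K) (hc : IsClosed K)
    (hball : ∀ y, y ⬝ᵥ y ≤ 1 → y ∈ K) {p : Fin (m + 1) → ℝ} (hp : p ∈ K)
    (hfar : ((m : ℝ) + 1) ^ 2 < p ⬝ᵥ p) :
    ∃ c D, IsInscribed K c D ∧ 1 < D.det ^ 2 := by
  obtain ⟨d, hd⟩ : ∃ d : ℝ, d = √(p ⬝ᵥ p) := ⟨_, rfl⟩
  have hdm : (m : ℝ) + 1 < d := hd ▸ Real.lt_sqrt_of_sq_lt hfar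
  have hm0 : (0 : ℝ) ≤ m := m.cast_nonneg
  have hd0 : 0 < d := by linarith
  obtain ⟨e, he'⟩ : ∃ e, e = d⁻¹ • p := ⟨_, rfl⟩
  have he : e ⬝ᵥ e = 1 := by
    rw [he', smul_dotProduct, dotProduct_smul, smul_eq_mul, smul_eq_mul,
      ← Real.sq_sqrt (dot_self_nonneg p), ← hd]
    field_simp
  obtain ⟨q, hq⟩ : ∃ q : ℝ, q = (m : ℝ) / (d - 1) := ⟨_, rfl⟩
  have hq1 : q < 1 := by rw [hq, div_lt_one (by linarith)]; linarith
  have hq0 : 0 ≤ q := by rw [hq]; exact div_nonneg hm0 (by linarith)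
  obtain ⟨t, ht⟩ : ∃ t : ℝ, t = min ((1 - q) / 4) ((d - 1) / 4) := ⟨_, rfl⟩
  have ht0 : 0 < t := ht ▸ lt_min (by linarith) (by linarith)
  have ht1 : t ≤ (1 - q) / 4 := ht ▸ min_le_left _ _
  have ht2 : t ≤ (d - 1) / 4 := ht ▸ min_le_right _ _
  obtain ⟨x, hx⟩ : ∃ x : ℝ, x = 2 * t / (d - 1) := ⟨_, rfl⟩
  have hx' : x * (d - 1) = 2 * t := by rw [hx, div_mul_cancel₀]; linarith
  have hx1 : x ≤ 1 / 2 := by rw [hx, div_le_iff₀ (by linarith)]; linarith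
  obtain ⟨b, hb⟩ : ∃ b : ℝ, b = √(1 - x) := ⟨_, rfl⟩
  have hb2 : b ^ 2 = 1 - x := hb ▸ Real.sq_sqrt (by linarith)
  have hb0 : 0 < b := hb ▸ Real.sqrt_pos.2 (by linarith)
  refine ⟨t • e, axisMatrix e (1 + t) b, fun y hy => ?_, ?_⟩
  · refine mem_of_forall_dot hK hc fun w u hu => ?_
    have hWu := sqrt_le_support hball hu
    have hW := Real.sq_sqrt (dot_self_nonneg w)
    have hlW := abs_le.1 (abs_dot_le_sqrt he w)
    have hlu : d * (e ⬝ᵥ w) ≤ u := by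
      refine le_of_eq_of_le ?_ (hu p hp)
      rw [he', smul_dotProduct, smul_eq_mul, dotProduct_comm p w, ← mul_assoc,
        mul_inv_cancel₀ hd0.ne', one_mul]
    generalize hl : e ⬝ᵥ w = l at hlW hlu ⊢
    have e3 : w ⬝ᵥ (t • e) = t * l := by rw [dotProduct_smul, dotProduct_comm, hl, smul_eq_mul]
    rw [dotProduct_add, e3]
    rcases le_total (d * l) √(w ⬝ᵥ w) with h | h
    · have hM : 0 ≤ √(w ⬝ᵥ w) - t * l := by nlinarith [Real.sqrt_nonneg (w ⬝ᵥ w)]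
      have := dot_axis_le he (a := 1 + t) (b := b) hM hy (w := w) (by
        rw [hl]
        have h3 := mul_nonneg (mul_nonneg (hx ▸ div_nonneg (by linarith) (by linarith) : 0 ≤ x)
          (neg_le_iff_add_nonneg'.1 hlW.1)) (sub_nonneg.2 h)
        rw [hb2]
        linear_combination h3 - (√(w ⬝ᵥ w) * l + l ^ 2) * hx' - (1 - x) * hW)
      linarith
    · have hl0 : 0 ≤ l := by nlinarith [Real.sqrt_nonneg (w ⬝ᵥ w)]
      have hM : 0 ≤ (d - t) * l := mul_nonneg (by linarith) hl0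
      have := dot_axis_le he (a := 1 + t) (b := b) hM hy (w := w) (by
        rw [hl]
        have h3 := mul_nonneg (sq_nonneg b) (sub_nonneg.2
          (pow_le_pow_left₀ (Real.sqrt_nonneg _) h 2))
        rw [hW] at h3
        rw [hb2] at h3 ⊢
        linear_combination h3 - (d + 1) * l ^ 2 * hx')
      linarith
  · rw [det_axisMatrix he _ hb0.ne', mul_pow, ← pow_mul, mul_comm m 2, pow_mul, hb2]
    have h1 := one_add_mul_le_pow (a := -x) (by linarith) m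
    rw [← sub_eq_add_neg] at h1
    have h2 : (m : ℝ) * x = 2 * t * q := by rw [hx, hq]; ring
    have h3 : 2 * t * q ≤ 2 * t := mul_le_of_le_one_right (by linarith) hq1.le
    have h4 : 1 + 2 * t ≤ (1 + t) ^ 2 := by nlinarith
    calc (1 : ℝ) < (1 - 2 * t * q) * (1 + 2 * t) := by nlinarith
      _ ≤ (1 - x) ^ m * (1 + t) ^ 2 := by
        refine mul_le_mul ?_ h4 (by linarith) (pow_nonneg (by linarith) m)
        linarith

/-- **A far pair of opposite points lets the centred ball grow.** -/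
theorem exists_larger_symm {K : Set (Fin (m + 1) → ℝ)} (hK : Convex ℝ K) (hc : IsClosed K)
    (hsym : ∀ x ∈ K, -x ∈ K) (hball : ∀ y, y ⬝ᵥ y ≤ 1 → y ∈ K) {p : Fin (m + 1) → ℝ} (hp : p ∈ K)
    (hfar : (m : ℝ) + 1 < p ⬝ᵥ p) :
    ∃ D, IsInscribed K 0 D ∧ 1 < D.det ^ 2 := by
  obtain ⟨d, hd⟩ : ∃ d : ℝ, d = √(p ⬝ᵥ p) := ⟨_, rfl⟩
  have hm0 : (0 : ℝ) ≤ m := m.cast_nonneg
  have hd2 : d ^ 2 = p ⬝ᵥ p := hd ▸ Real.sq_sqrt (dot_self_nonneg p)
  have hd0 : 0 < d := hd ▸ Real.sqrt_pos.2 (by linarith)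
  obtain ⟨e, he'⟩ : ∃ e, e = d⁻¹ • p := ⟨_, rfl⟩
  have he : e ⬝ᵥ e = 1 := by
    rw [he', smul_dotProduct, dotProduct_smul, smul_eq_mul, smul_eq_mul, ← hd2]
    field_simp
  have hd1 : 0 < d ^ 2 - 1 := by linarith
  obtain ⟨q, hq⟩ : ∃ q : ℝ, q = (m : ℝ) / (d ^ 2 - 1) := ⟨_, rfl⟩
  have hq1 : q < 1 := by rw [hq, div_lt_one hd1]; linarith
  obtain ⟨s, hs⟩ : ∃ s : ℝ, s = min ((1 - q) / 2) ((d ^ 2 - 1) / 2) := ⟨_, rfl⟩
  have hs0 : 0 < s := hs ▸ lt_min (by linarith) (by linarith)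
  have hs1 : s ≤ (1 - q) / 2 := hs ▸ min_le_left _ _
  have hs2 : s ≤ (d ^ 2 - 1) / 2 := hs ▸ min_le_right _ _
  obtain ⟨x, hx⟩ : ∃ x : ℝ, x = s / (d ^ 2 - 1) := ⟨_, rfl⟩
  have hx' : x * (d ^ 2 - 1) = s := by rw [hx, div_mul_cancel₀ _ hd1.ne']
  have hx1 : x ≤ 1 / 2 := by rw [hx, div_le_iff₀ hd1]; linarith
  have hx0 : 0 ≤ x := hx ▸ div_nonneg hs0.le hd1.le
  obtain ⟨a, ha⟩ : ∃ a : ℝ, a = √(1 + s) := ⟨_, rfl⟩
  have ha2 : a ^ 2 = 1 + s := ha ▸ Real.sq_sqrt (by linarith)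
  obtain ⟨b, hb⟩ : ∃ b : ℝ, b = √(1 - x) := ⟨_, rfl⟩
  have hb2 : b ^ 2 = 1 - x := hb ▸ Real.sq_sqrt (by linarith)
  have hb0 : 0 < b := hb ▸ Real.sqrt_pos.2 (by linarith)
  refine ⟨axisMatrix e a b, fun y hy => ?_, ?_⟩
  · rw [zero_add]
    refine mem_of_forall_dot hK hc fun w u hu => ?_
    have hWu := sqrt_le_support hball hu
    have hW := Real.sq_sqrt (dot_self_nonneg w)
    have e3 : d * (e ⬝ᵥ w) = w ⬝ᵥ p := by
      rw [he', smul_dotProduct, smul_eq_mul, dotProduct_comm p w, ← mul_assoc,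
        mul_inv_cancel₀ hd0.ne', one_mul]
    have hlu : d * |e ⬝ᵥ w| ≤ u := by
      rw [← abs_of_pos hd0, ← abs_mul, e3, abs_le]
      have h1 := hu p hp
      have h2 := hu (-p) (hsym p hp)
      rw [dotProduct_neg] at h2
      constructor <;> linarith
    generalize hl : e ⬝ᵥ w = l at hlu ⊢
    rcases le_total (d * |l|) √(w ⬝ᵥ w) with h | h
    · refine (dot_axis_le he (Real.sqrt_nonneg _) hy ?_).trans hWu
      rw [hl, hW, ha2, hb2]
      have h3 := mul_le_mul_of_nonneg_left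
        (pow_le_pow_left₀ (mul_nonneg hd0.le (abs_nonneg l)) h 2) hx0
      rw [mul_pow, sq_abs, hW] at h3
      linear_combination h3 - l ^ 2 * hx'
    · refine (dot_axis_le he (mul_nonneg hd0.le (abs_nonneg l)) hy ?_).trans hlu
      rw [hl, mul_pow, sq_abs, ha2, hb2]
      have h3 := mul_le_mul_of_nonneg_left (pow_le_pow_left₀ (Real.sqrt_nonneg _) h 2)
        (show 0 ≤ 1 - x by linarith)
      rw [mul_pow, sq_abs, hW] at h3
      linear_combination h3 - l ^ 2 * hx'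
  · rw [det_axisMatrix he _ hb0.ne', mul_pow, ← pow_mul, mul_comm m 2, pow_mul, hb2, ha2]
    have h1 := one_add_mul_le_pow (a := -x) (by linarith) m
    rw [← sub_eq_add_neg] at h1
    have h2 : (m : ℝ) * x = s * q := by rw [hx, hq]; ring
    have h3 : s * q ≤ s := mul_le_of_le_one_right hs0.le hq1.le
    calc (1 : ℝ) < (1 - s * q) * (1 + s) := by nlinarith
      _ ≤ (1 - x) ^ m * (1 + s) := mul_le_mul_of_nonneg_right (by linarith) (by linarith)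

end FA.John

end
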